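import Mathlib
import Fermat.Prelude.Def_ModularCurve_LaurentCoeff
import Fermat.Prelude.Def_GaloisRep_Flat

/-!
# S28, piece (T): base change of a chart algebra to a field of characteristic `ℓ`

If `A` is a commutative `ℤ_(ℓ)`-algebra with a ring hom `φ : A → 𝔽_ℓ((q))` whose kernel is
contained in `ℓ A`, then for every field `K` of characteristic `ℓ` the ring `A ⊗ K` embeds into
`K((q))`; in particular it is a domain.
-/

set_option autoImplicit false
set_option linter.unusedSectionVars false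
set_option linter.style.haveILetI false

open scoped TensorProduct

noncomputable section

namespace Fermat.Agent.S28.H746

/-- Two ring homs from `ℤ_(ℓ)` to a domain in which the integers prime to `ℓ` are nonzero
agree. -/
theorem ratLocalizedAt_ringHom_ext (ℓ : ℕ) {T : Type*} [CommRing T] [IsDomain T]
    (hT : ∀ d : ℕ, d.Coprime ℓ → (d : T) ≠ 0)
    (h₁ h₂ : ↥(GaloisRep.ratLocalizedAt ℓ) →+* T) : h₁ = h₂ := by
  ext ⟨r, hr⟩
  have hd : (r.den : T) ≠ 0 := hT r.den hr
  have key : ∀ h : ↥(GaloisRep.ratLocalizedAt ℓ) →+* T,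
      h ⟨r, hr⟩ * (r.den : T) = (r.num : T) := by
    intro h
    have e : (⟨r, hr⟩ : ↥(GaloisRep.ratLocalizedAt ℓ)) * (r.den : ↥(GaloisRep.ratLocalizedAt ℓ))
        = (r.num : ↥(GaloisRep.ratLocalizedAt ℓ)) := by
      apply Subtype.ext
      push_cast
      exact Rat.mul_den_eq_num r
    have := congrArg h e
    simpa using this
  exact mul_right_cancel₀ hd ((key h₁).trans (key h₂).symm)

section

variable (ℓ : ℕ) [Fact ℓ.Prime]
variable {A : Type} [CommRing A] [Algebra ↥(GaloisRep.ratLocalizedAt ℓ) A]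
variable (φ : A →+* LaurentSeries (ZMod ℓ))
variable (K : Type) [Field K] [CharP K ℓ] [Algebra ↥(GaloisRep.ratLocalizedAt ℓ) K]

/-- The canonical map `𝔽_ℓ → K`. -/
def iota : ZMod ℓ →+* K := ZMod.castHom (dvd_refl ℓ) K

/-- `A → 𝔽_ℓ((q)) → K((q))`. -/
def leftHom : A →+* LaurentSeries K := (ModularCurve.coeffMap (iota ℓ K)).comp φ

theorem leftHom_coeff (a : A) (n : ℤ) :
    (leftHom ℓ φ K a).coeff n = iota ℓ K ((φ a).coeff n) := rfl

theorem natCast_laurent_ne_zero (d : ℕ) (hd : d.Coprime ℓ) : ((d : ℕ) : LaurentSeries K) ≠ 0 := by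
  have hp : ℓ.Prime := Fact.out
  have hdK : (d : K) ≠ 0 := by
    intro h
    have hdvd : ℓ ∣ d := (CharP.cast_eq_zero_iff K ℓ d).mp h
    have : ℓ ∣ Nat.gcd d ℓ := Nat.dvd_gcd hdvd dvd_rfl
    rw [hd] at this
    exact hp.one_lt.ne' (Nat.dvd_one.mp this)
  intro h
  apply hdK
  apply (algebraMap K (LaurentSeries K)).injective
  rw [map_natCast, map_zero]
  exact h

/-- `A → K((q))` as a `ℤ_(ℓ)`-algebra hom. -/
def leftAlgHom : A →ₐ[↥(GaloisRep.ratLocalizedAt ℓ)] LaurentSeries K :=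
  { leftHom ℓ φ K with
    commutes' := fun r => by
      have := ratLocalizedAt_ringHom_ext ℓ (T := LaurentSeries K)
        (natCast_laurent_ne_zero ℓ K)
        ((leftHom ℓ φ K).comp (algebraMap ↥(GaloisRep.ratLocalizedAt ℓ) A))
        (algebraMap ↥(GaloisRep.ratLocalizedAt ℓ) (LaurentSeries K))
      exact congrArg (fun h => h r) this }

/-- `K → K((q))` as a `ℤ_(ℓ)`-algebra hom. -/
def rightAlgHom : K →ₐ[↥(GaloisRep.ratLocalizedAt ℓ)] LaurentSeries K :=
  { algebraMap K (LaurentSeries K) with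
    commutes' := fun r => by
      have := ratLocalizedAt_ringHom_ext ℓ (T := LaurentSeries K)
        (natCast_laurent_ne_zero ℓ K)
        ((algebraMap K (LaurentSeries K)).comp (algebraMap ↥(GaloisRep.ratLocalizedAt ℓ) K))
        (algebraMap ↥(GaloisRep.ratLocalizedAt ℓ) (LaurentSeries K))
      exact congrArg (fun h => h r) this }

/-- The comparison map `A ⊗ K → K((q))`. -/
def tensorHom : A ⊗[↥(GaloisRep.ratLocalizedAt ℓ)] K →ₐ[↥(GaloisRep.ratLocalizedAt ℓ)]
    LaurentSeries K :=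
  Algebra.TensorProduct.productMap (leftAlgHom ℓ φ K) (rightAlgHom ℓ K)

theorem tensorHom_tmul (a : A) (c : K) :
    tensorHom ℓ φ K (a ⊗ₜ c) = leftHom ℓ φ K a * algebraMap K (LaurentSeries K) c := by
  simp [tensorHom, leftAlgHom, rightAlgHom]

theorem tensorHom_tmul_coeff (a : A) (c : K) (n : ℤ) :
    (tensorHom ℓ φ K (a ⊗ₜ c)).coeff n = iota ℓ K ((φ a).coeff n) * c := by
  rw [tensorHom_tmul, ModularCurve.algebraMap_laurentSeries_eq_single,
    HahnSeries.coeff_mul_single_zero, leftHom_coeff]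

theorem natCast_mul_tmul (n : ℕ) (x : A) (y : K) :
    (((n : A) * x) ⊗ₜ[↥(GaloisRep.ratLocalizedAt ℓ)] y) =
      x ⊗ₜ[↥(GaloisRep.ratLocalizedAt ℓ)] ((n : K) * y) := by
  rw [← nsmul_eq_mul, ← nsmul_eq_mul, TensorProduct.smul_tmul]

theorem iota_eq_val (z : ZMod ℓ) : iota ℓ K z = ((z.val : ℕ) : K) := by
  have h : z = ((z.val : ℕ) : ZMod ℓ) := (ZMod.natCast_zmod_val z).symm
  conv_lhs => rw [h]
  rw [map_natCast]

/-- Every element of `A ⊗ K` is a finite sum `∑ aᵢ ⊗ bᵢ` over an `𝔽_ℓ`-basis `b` of `K`. -/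
theorem exists_finsupp_repr (t : A ⊗[↥(GaloisRep.ratLocalizedAt ℓ)] K) :
    letI : Algebra (ZMod ℓ) K := ZMod.algebra K ℓ
    ∃ f : (Module.Basis.ofVectorSpaceIndex (ZMod ℓ) K) →₀ A,
      (f.sum fun i a => a ⊗ₜ[↥(GaloisRep.ratLocalizedAt ℓ)]
        (Module.Basis.ofVectorSpace (ZMod ℓ) K i)) = t := by
  letI : Algebra (ZMod ℓ) K := ZMod.algebra K ℓ
  induction t using TensorProduct.induction_on with
  | zero => exact ⟨0, Finsupp.sum_zero_index⟩
  | add x y hx hy =>
    obtain ⟨f, rfl⟩ := hx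
    obtain ⟨g, rfl⟩ := hy
    refine ⟨f + g, ?_⟩
    exact Finsupp.sum_add_index' (fun i => TensorProduct.zero_tmul _ _)
      (fun i a a' => TensorProduct.add_tmul _ _ _)
  | tmul x c =>
    refine ⟨(((Module.Basis.ofVectorSpace (ZMod ℓ) K).repr c)).mapRange
      (fun z => ((z.val : ℕ) : A) * x) (by simp), ?_⟩
    rw [Finsupp.sum_mapRange_index
      (h := fun i a => a ⊗ₜ[↥(GaloisRep.ratLocalizedAt ℓ)]
        (Module.Basis.ofVectorSpace (ZMod ℓ) K i))
      (fun i => TensorProduct.zero_tmul _ _)]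
    conv_rhs => rw [← (Module.Basis.ofVectorSpace (ZMod ℓ) K).linearCombination_repr c,
      Finsupp.linearCombination_apply]
    rw [Finsupp.sum, Finsupp.sum, TensorProduct.tmul_sum]
    refine Finset.sum_congr rfl fun i _ => ?_
    rw [natCast_mul_tmul]
    congr 1
    change _ = iota ℓ K _ * _
    rw [iota_eq_val]

theorem tensorHom_injective (hφ : ∀ a, φ a = 0 → ∃ b, a = (ℓ : A) * b) :
    Function.Injective (tensorHom ℓ φ K) := by
  letI : Algebra (ZMod ℓ) K := ZMod.algebra K ℓ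
  rw [injective_iff_map_eq_zero]
  intro t ht
  obtain ⟨f, rfl⟩ := exists_finsupp_repr ℓ K t
  have hli := (Module.Basis.ofVectorSpace (ZMod ℓ) K).linearIndependent
  rw [linearIndependent_iff'] at hli
  have hzero : ∀ i, φ (f i) = 0 := by
    intro i
    by_cases hi : i ∈ f.support
    · ext n
      have hn : (tensorHom ℓ φ K (f.sum fun i a => a ⊗ₜ[↥(GaloisRep.ratLocalizedAt ℓ)]
        (Module.Basis.ofVectorSpace (ZMod ℓ) K i))).coeff n = 0 := by rw [ht]; rfl
      rw [Finsupp.sum, map_sum, HahnSeries.coeff_sum] at hn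
      simp only [tensorHom_tmul_coeff] at hn
      exact hli f.support (fun i => (φ (f i)).coeff n) hn i hi
    · rw [Finsupp.notMem_support_iff.mp hi, map_zero]
  rw [Finsupp.sum]
  refine Finset.sum_eq_zero fun i _ => ?_
  obtain ⟨a', ha'⟩ := hφ (f i) (hzero i)
  rw [ha', natCast_mul_tmul, CharP.cast_eq_zero K ℓ, zero_mul, TensorProduct.tmul_zero]


/-- **Piece (T), main form.** If `φ : A → 𝔽_ℓ((q))` has kernel inside `ℓ A`, then `A ⊗ K` is a
domain for every field `K` of characteristic `ℓ`. -/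
theorem isDomain_tensor_of_qExp (hφ : ∀ a, φ a = 0 → ∃ b, a = (ℓ : A) * b) :
    IsDomain (A ⊗[↥(GaloisRep.ratLocalizedAt ℓ)] K) :=
  Function.Injective.isDomain (tensorHom ℓ φ K).toRingHom (tensorHom_injective ℓ φ K hφ)

/-- The same with the tensor factors in the other order. -/
theorem isDomain_tensor_of_qExp' (hφ : ∀ a, φ a = 0 → ∃ b, a = (ℓ : A) * b) :
    IsDomain (K ⊗[↥(GaloisRep.ratLocalizedAt ℓ)] A) :=
  Function.Injective.isDomain
    ((tensorHom ℓ φ K).toRingHom.comp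
      (Algebra.TensorProduct.comm ↥(GaloisRep.ratLocalizedAt ℓ) K A).toRingEquiv.toRingHom)
    ((tensorHom_injective ℓ φ K hφ).comp
      (Algebra.TensorProduct.comm ↥(GaloisRep.ratLocalizedAt ℓ) K A).injective)

include φ in
/-- Nontriviality needs no kernel hypothesis at all: a ring hom `A → 𝔽_ℓ((q))` suffices. -/
theorem nontrivial_tensor_of_qExp : Nontrivial (A ⊗[↥(GaloisRep.ratLocalizedAt ℓ)] K) := by
  refine ⟨⟨0, 1, fun h => ?_⟩⟩
  have := congrArg (tensorHom ℓ φ K) h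
  rw [map_zero, map_one] at this
  exact zero_ne_one this

include φ in
/-- Nontriviality, other order. -/
theorem nontrivial_tensor_of_qExp' : Nontrivial (K ⊗[↥(GaloisRep.ratLocalizedAt ℓ)] A) := by
  refine ⟨⟨0, 1, fun h => ?_⟩⟩
  have := congrArg ((tensorHom ℓ φ K).toRingHom.comp
      (Algebra.TensorProduct.comm ↥(GaloisRep.ratLocalizedAt ℓ) K A).toRingEquiv.toRingHom) h
  rw [map_zero, map_one] at this
  exact zero_ne_one this

end

end Fermat.Agent.S28.H746
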